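import Mathlib
import Fermat.Agent.LT.T7.H893.SupplyProdSpec

/-!
# Row LT, tower T7, node T7.L2.1.H2b `ProdMtCb`, leaf H2b.1 `LevelUniqC893` (helper301)

OFF-MAIN.  Registry row 2853.  Spec: `LT/T7/H893/SupplyProdSpec.lean` (helper893, sha256
21691ff19b22972e).

    levelUniqC301 (F) : H893.LevelUniqC893 F        VERBATIM, UNCONDITIONAL

Proof.  If the balls `{x : |x| ≤ exp (-a)}` and `{x : |x| ≤ exp (-b)}` of `F_v` are the same
set, evaluate at `x = π ^ a` (`π ∈ F` a uniformiser, `|π| = exp (-1)`): `exp (-a) ≤ exp (-b)`,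
i.e. `b ≤ a`; by symmetry `a = b`.

Only Mathlib and the Spec are imported.  Every declaration of this file is in the namespace
`Fermat.Agent.LT.T7.H301`; no equation lemma of an imported definition is used.
-/

set_option autoImplicit false
set_option linter.unusedSectionVars false

open IsDedekindDomain NumberField

noncomputable section

namespace Fermat.Agent.LT.T7.H301

open Fermat.Agent.LT.H556 Fermat.Agent.LT.H556.A0 Fermat.Agent.LT.T7

variable {F : Type} [Field F] [NumberField F]

/-- Every `exp (-n)`, `n : ℕ`, is a value of the valuation of `F_v`. -/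
theorem exists_valued_eq_exp301 (v : HeightOneSpectrum (𝓞 F)) (n : ℕ) :
    ∃ x : v.adicCompletion F, Valued.v x = WithZero.exp (-(n : ℤ)) := by
  obtain ⟨π, hπ⟩ := HeightOneSpectrum.valuation_exists_uniformizer F v
  refine ⟨algebraMap F (v.adicCompletion F) (π ^ n), ?_⟩
  have h1 : Valued.v (algebraMap F (v.adicCompletion F) (π ^ n)) = v.valuation F (π ^ n) :=
    HeightOneSpectrum.valuedAdicCompletion_eq_valuation' v (π ^ n)
  rw [h1, map_pow, hπ, ← WithZero.exp_nsmul]
  simp

/-- Two balls which are the same set have the same radius. -/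
theorem exp_le_of_ball301 (v : HeightOneSpectrum (𝓞 F)) (a b : ℕ)
    (h : ∀ x : v.adicCompletion F,
      Valued.v x ≤ WithZero.exp (-(a : ℤ)) → Valued.v x ≤ WithZero.exp (-(b : ℤ))) :
    b ≤ a := by
  obtain ⟨x, hx⟩ := exists_valued_eq_exp301 v a
  have h1 := h x hx.le
  rw [hx, WithZero.exp_le_exp] at h1
  omega

theorem levelUniqC301 (F : Type) [Field F] [NumberField F] : H893.LevelUniqC893 F := by
  intro 𝔫 m m' hm hm'
  funext v
  have h1 : m' v ≤ m v :=
    exp_le_of_ball301 v (m v) (m' v) fun x hx => (hm' v x).1 ((hm v x).2 hx)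
  have h2 : m v ≤ m' v :=
    exp_le_of_ball301 v (m' v) (m v) fun x hx => (hm v x).1 ((hm' v x).2 hx)
  exact le_antisymm h2 h1

end Fermat.Agent.LT.T7.H301
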