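import Mathlib
import Fermat.Agent.LT.T7.H816.IotaSpec

/-!
# Row LT, tower T7, node T7.L2.1 `SupplyC`, leaf C2.4-I.8 `NormFinC816` (helper301)

OFF-MAIN.  Registry row 2475.  Spec: `LT/T7/H816/IotaSpec.lean` (helper816, sha256 c16fad08c5fc320c).

    normFinC301 (K K') : H816.NormFinC816 K K'        VERBATIM, UNCONDITIONAL

For every ring homomorphism `ι : 𝔸_K → 𝔸_{K'}` with `IsPreBase816 ι` and every idele `x` of `K`:
`∏_w ‖(ι x)_w‖ = (∏_v ‖x_v‖) ^ l`, `l = [K' : K]`.  (The hypothesis `IsCycExt` is used for the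
degree only; no Galois property, no continuity of `ι`.)

## Proof

* `PlaceOver K K' v w` is `w.asIdeal.LiesOver v.asIdeal` (`liesOver_of_placeOver301`,
  `placeOver_of_liesOver301`).
* The exponent `e` of a local embedding `i : K_v → K'_w` (`|i x| = |x| ^ e`, `i = (K → K')` on
  `K`) is the ramification index: evaluate at a uniformiser of `K` and use Mathlib's
  `valuation_liesOver` (`exp_eq_ramificationIdx301`).
* `N w = N v ^ f` (Mathlib `Ideal.absNorm_eq_pow_inertiaDeg'_of_liesOver`), hence
  `‖i a‖ = ‖a‖ ^ (e f)` (`norm_local301`).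
* `∑_{w ∣ v} e_w f_w = [K' : K]` (Mathlib `Ideal.sum_ramification_inertia`, `sum_ef301`).
* An idele has norm `1` at almost all places (`finite_support301`); the product over `w` is
  the product over `v` of the products over the places above `v`.

Only Mathlib and the Spec are imported.  Every declaration of this file is in the namespace
`Fermat.Agent.LT.T7.H301`; no equation lemma of an imported definition is used.
-/

set_option autoImplicit false
set_option linter.unusedSectionVars false
set_option linter.deprecated false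

open IsDedekindDomain NumberField
open scoped NNReal

noncomputable section

namespace Fermat.Agent.LT.T7.H301

open Fermat.Agent.LT.H556 Fermat.Agent.LT.H556.A0 Fermat.Agent.LT.T7

variable {K K' : Type} [Field K] [NumberField K] [Field K'] [NumberField K'] [Algebra K K']

theorem liesOver_of_placeOver301 {v : HeightOneSpectrum (𝓞 K)} {w : HeightOneSpectrum (𝓞 K')}
    (h : PlaceOver K K' v w) : w.asIdeal.LiesOver v.asIdeal := by
  constructor
  ext x
  rw [Ideal.under_def, Ideal.mem_comap]
  exact h x (algebraMap (𝓞 K) (𝓞 K') x) rfl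

theorem placeOver_of_liesOver301 {v : HeightOneSpectrum (𝓞 K)} {w : HeightOneSpectrum (𝓞 K')}
    (h : w.asIdeal.LiesOver v.asIdeal) : PlaceOver K K' v w := by
  intro x y hxy
  have hy : y = algebraMap (𝓞 K) (𝓞 K') x := RingOfIntegers.ext hxy
  subst hy
  rw [h.over, Ideal.under_def, Ideal.mem_comap]

/-- The valuation of the image of `x : K` in the completion. -/
theorem valued_algebraMap301 (v : HeightOneSpectrum (𝓞 K)) (x : K) :
    Valued.v (algebraMap K (v.adicCompletion K) x) = v.valuation K x :=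
  HeightOneSpectrum.valuedAdicCompletion_eq_valuation' v x

/-- The exponent of a local embedding is the ramification index. -/
theorem exp_eq_ramificationIdx301 {v : HeightOneSpectrum (𝓞 K)} {w : HeightOneSpectrum (𝓞 K')}
    (h : PlaceOver K K' v w) (e : ℕ) (i : v.adicCompletion K →+* w.adicCompletion K')
    (hi : ∀ x : K, i (algebraMap K (v.adicCompletion K) x)
        = algebraMap K' (w.adicCompletion K') (algebraMap K K' x))
    (hv : ∀ x : v.adicCompletion K, Valued.v (i x) = Valued.v x ^ e) :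
    e = v.asIdeal.ramificationIdx' w.asIdeal := by
  have := liesOver_of_placeOver301 h
  obtain ⟨π, hπ⟩ := HeightOneSpectrum.valuation_exists_uniformizer K v
  have h1 := hv (algebraMap K (v.adicCompletion K) π)
  rw [hi, valued_algebraMap301, valued_algebraMap301,
    ← HeightOneSpectrum.valuation_liesOver K' v w π, hπ] at h1
  rw [← WithZero.exp_nsmul, ← WithZero.exp_nsmul, WithZero.exp_inj] at h1
  have h2 : ((v.asIdeal.ramificationIdx' w.asIdeal : ℕ) : ℤ) = (e : ℤ) := by
    simpa using h1
  exact_mod_cast h2.symm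

theorem toNNReal_pow301 {a b : ℝ≥0} (ha : a ≠ 0) (hb : b ≠ 0) (f : ℕ) (hf : f ≠ 0)
    (hab : b = a ^ f) (γ : WithZero (Multiplicative ℤ)) :
    WithZeroMulInt.toNNReal hb γ = (WithZeroMulInt.toNNReal ha γ) ^ f := by
  by_cases hγ : γ = 0
  · subst hγ; simp [hf]
  · rw [WithZeroMulInt.toNNReal_neg_apply hb hγ, WithZeroMulInt.toNNReal_neg_apply ha hγ]
    subst hab
    rw [← zpow_natCast, ← zpow_natCast, ← zpow_mul, ← zpow_mul, mul_comm]

theorem inertiaDeg_ne_zero301 {v : HeightOneSpectrum (𝓞 K)} {w : HeightOneSpectrum (𝓞 K')}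
    (h : PlaceOver K K' v w) :
    Ideal.absNorm w.asIdeal = Ideal.absNorm v.asIdeal ^ (v.asIdeal.inertiaDeg' w.asIdeal) ∧
      v.asIdeal.inertiaDeg' w.asIdeal ≠ 0 := by
  have := liesOver_of_placeOver301 h
  have h1 : Ideal.absNorm w.asIdeal = Ideal.absNorm v.asIdeal ^ (v.asIdeal.inertiaDeg' w.asIdeal) :=
    Ideal.absNorm_eq_pow_inertiaDeg'_of_liesOver w.asIdeal v.asIdeal v.isPrime v.ne_bot
  refine ⟨h1, fun h0 => ?_⟩
  rw [h0, pow_zero] at h1
  have := NumberField.HeightOneSpectrum.one_lt_absNorm w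
  omega

/-- The local norm relation. -/
theorem norm_local301 {v : HeightOneSpectrum (𝓞 K)} {w : HeightOneSpectrum (𝓞 K')}
    (h : PlaceOver K K' v w) (e : ℕ) (i : v.adicCompletion K →+* w.adicCompletion K')
    (hi : ∀ x : K, i (algebraMap K (v.adicCompletion K) x)
        = algebraMap K' (w.adicCompletion K') (algebraMap K K' x))
    (hv : ∀ x : v.adicCompletion K, Valued.v (i x) = Valued.v x ^ e)
    (a : v.adicCompletion K) :
    ‖i a‖ = ‖a‖ ^ (v.asIdeal.ramificationIdx' w.asIdeal * v.asIdeal.inertiaDeg' w.asIdeal) := by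
  have he := exp_eq_ramificationIdx301 h e i hi hv
  obtain ⟨hN, hf⟩ := inertiaDeg_ne_zero301 h
  rw [NumberField.FinitePlace.norm_def, NumberField.FinitePlace.norm_def, hv, map_pow, ← he]
  have hN' : (Ideal.absNorm w.asIdeal : ℝ≥0)
      = (Ideal.absNorm v.asIdeal : ℝ≥0) ^ (v.asIdeal.inertiaDeg' w.asIdeal) := by
    rw [hN]; push_cast; rfl
  rw [toNNReal_pow301 (NumberField.HeightOneSpectrum.absNorm_ne_zero v)
    (NumberField.HeightOneSpectrum.absNorm_ne_zero w) _ hf hN' (Valued.v a)]
  push_cast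
  rw [← pow_mul, mul_comm]

/-- The places of `K'` over `v`, as a finite set. -/
def placesOver301 (K' : Type) [Field K'] [NumberField K'] [Algebra K K']
    (v : HeightOneSpectrum (𝓞 K)) : Finset (HeightOneSpectrum (𝓞 K')) :=
  (IsDedekindDomain.primesOverFinset v.asIdeal (𝓞 K')).preimage (fun w => w.asIdeal)
    (Function.Injective.injOn (fun _ _ h => HeightOneSpectrum.ext h))

theorem mem_placesOver301 {v : HeightOneSpectrum (𝓞 K)} {w : HeightOneSpectrum (𝓞 K')} :
    w ∈ placesOver301 K' v ↔ PlaceOver K K' v w := by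
  have := v.isMaximal
  rw [placesOver301, Finset.mem_preimage, IsDedekindDomain.mem_primesOverFinset_iff v.ne_bot]
  constructor
  · intro h; exact placeOver_of_liesOver301 h.2
  · intro h; exact ⟨w.isPrime, liesOver_of_placeOver301 h⟩

theorem sum_ef301 (v : HeightOneSpectrum (𝓞 K)) :
    ∑ w ∈ placesOver301 K' v,
        v.asIdeal.ramificationIdx' w.asIdeal * v.asIdeal.inertiaDeg' w.asIdeal
      = Module.finrank K K' := by
  have := v.isMaximal
  rw [← Ideal.sum_ramification_inertia (𝓞 K') K K' v.ne_bot, placesOver301]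
  refine Finset.sum_preimage (fun w : HeightOneSpectrum (𝓞 K') => w.asIdeal) _ _
    (fun P => v.asIdeal.ramificationIdx' P * v.asIdeal.inertiaDeg' P) ?_
  intro P hP hnot
  exfalso; apply hnot
  rw [IsDedekindDomain.mem_primesOverFinset_iff v.ne_bot] at hP
  have := hP.2
  exact ⟨⟨P, hP.1, Ideal.ne_bot_of_liesOver_of_ne_bot v.ne_bot P⟩, rfl⟩

/-- The place of `K` under `w`. -/
def under301 (K : Type) [Field K] [NumberField K] [Algebra K K']
    (w : HeightOneSpectrum (𝓞 K')) : HeightOneSpectrum (𝓞 K) :=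
  ⟨w.asIdeal.under (𝓞 K), inferInstance, Ideal.under_ne_bot (𝓞 K) w.ne_bot⟩

theorem placeOver_under301 (w : HeightOneSpectrum (𝓞 K')) : PlaceOver K K' (under301 K w) w :=
  placeOver_of_liesOver301 ⟨rfl⟩

theorem eq_under301 {v : HeightOneSpectrum (𝓞 K)} {w : HeightOneSpectrum (𝓞 K')}
    (h : PlaceOver K K' v w) : v = under301 K w :=
  HeightOneSpectrum.ext (liesOver_of_placeOver301 h).over

theorem finite_support301 (x : (Adl K)ˣ) :
    (Function.mulSupport fun v : HeightOneSpectrum (𝓞 K) => ‖(x : Adl K).2 v‖).Finite := by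
  have hx := (x : Adl K).2.2
  have hy := ((x⁻¹ : (Adl K)ˣ) : Adl K).2.2
  have hfin := hx.and hy
  rw [Filter.eventually_cofinite] at hfin
  refine hfin.subset ?_
  intro v hv
  simp only [Function.mem_mulSupport] at hv
  rintro ⟨h1, h2⟩
  apply hv
  have hmul : (x : Adl K).2 v * ((x⁻¹ : (Adl K)ˣ) : Adl K).2 v = 1 := by
    have h0 : ((x : Adl K) * ((x⁻¹ : (Adl K)ˣ) : Adl K)) = 1 := x.mul_inv
    exact congrArg (fun z : Adl K => z.2 v) h0
  have hn := congrArg norm hmul
  rw [norm_mul, norm_one] at hn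
  have h1' : ‖(x : Adl K).2 v‖ ≤ 1 :=
    Valued.toNormedField.norm_le_one_iff.2 ((HeightOneSpectrum.mem_adicCompletionIntegers _ _ _).1 h1)
  have h2' : ‖((x⁻¹ : (Adl K)ˣ) : Adl K).2 v‖ ≤ 1 :=
    Valued.toNormedField.norm_le_one_iff.2 ((HeightOneSpectrum.mem_adicCompletionIntegers _ _ _).1 h2)
  nlinarith [norm_nonneg ((x : Adl K).2 v), norm_nonneg (((x⁻¹ : (Adl K)ˣ) : Adl K).2 v)]

theorem normFinC301 (K K' : Type) [Field K] [NumberField K] [Field K'] [NumberField K']
    [Algebra K K'] : H816.NormFinC816 K K' := by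
  classical
  intro l hl ι hι x
  have hloc : ∀ (v : HeightOneSpectrum (𝓞 K)) (w : HeightOneSpectrum (𝓞 K')),
      PlaceOver K K' v w → ‖(ι (x : Adl K)).2 w‖
        = ‖(x : Adl K).2 v‖
            ^ (v.asIdeal.ramificationIdx' w.asIdeal * v.asIdeal.inertiaDeg' w.asIdeal) := by
    intro v w hvw
    obtain ⟨e, i, _, hi, hv, hfin⟩ := hι.fin v w hvw
    have h1 : (ι (x : Adl K)).2 w = i ((x : Adl K).2 v) := hfin (x : Adl K)
    rw [h1]
    exact norm_local301 hvw e i hi hv _
  have hS := finite_support301 x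
  have hsub : (Function.mulSupport fun w : HeightOneSpectrum (𝓞 K') => ‖(ι (x : Adl K)).2 w‖)
      ⊆ ((hS.toFinset.biUnion (placesOver301 K') : Finset (HeightOneSpectrum (𝓞 K'))) :
          Set (HeightOneSpectrum (𝓞 K'))) := by
    intro w hw
    rw [Function.mem_mulSupport] at hw
    rw [Finset.mem_coe, Finset.mem_biUnion]
    refine ⟨under301 K w, ?_, mem_placesOver301.2 (placeOver_under301 w)⟩
    rw [Set.Finite.mem_toFinset, Function.mem_mulSupport]
    intro h1
    apply hw
    rw [hloc _ _ (placeOver_under301 w), h1, one_pow]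
  rw [finprod_eq_prod_of_mulSupport_subset _ hsub,
    finprod_eq_prod_of_mulSupport_subset _ (s := hS.toFinset) (by rw [Set.Finite.coe_toFinset]),
    Finset.prod_biUnion]
  · rw [← Finset.prod_pow]
    refine Finset.prod_congr rfl (fun v _ => ?_)
    rw [Finset.prod_congr rfl (fun w hw => hloc v w (mem_placesOver301.1 hw)),
      Finset.prod_pow_eq_pow_sum, sum_ef301, hl.degree]
  · intro v₁ _ v₂ _ hne
    rw [Function.onFun, Finset.disjoint_left]
    intro w hw1 hw2
    exact hne ((eq_under301 (mem_placesOver301.1 hw1)).trans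
      (eq_under301 (mem_placesOver301.1 hw2)).symm)

end Fermat.Agent.LT.T7.H301
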