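import Mathlib
import Fermat.Agent.LT.T7.H558.FactDownSpec

/-!
# Row LT, tower T7, node C2.7.7 `FactDownC305`, leaf FD.6 `RayFinC558` (helper301)

OFF-MAIN.  Registry row 2641.  Spec: `LT/T7/H558/FactDownSpec.lean` (helper558, sha256 8043f526).

    rayFinC301 (K) : H558.RayFinC558 K        VERBATIM, UNCONDITIONAL

## Proof

`|det (z⁻¹ γ_w r_w^j z)| = |det γ_w| · (t²)^j` with `t > 1` (`t ^ (2 [K:ℚ]) = 2`, `0 < t`).
On the compact support of `F w` the continuous functions `|det|` and `|det|⁻¹` are bounded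
(`IsCompact.bddAbove_image`; no case distinction on the support being empty), so
`|det γ_w| (t²)^j ≤ b` and `(|det γ_w| (t²)^j)⁻¹ ≤ b'`, which fails for `|j| > N` as soon as
`(t²)^N > max (b / c) (b' c)`.  `J` is the union over `w` of the intervals `[-N_w, N_w]`.

Only Mathlib and the Spec are imported.  Every declaration of this file is in the namespace
`Fermat.Agent.LT.T7.H301`; no equation lemma of an imported definition is used.
-/

set_option autoImplicit false
set_option linter.unusedSectionVars false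

open IsDedekindDomain NumberField

noncomputable section

namespace Fermat.Agent.LT.T7.H301

open Fermat.Agent.LT.H556 Fermat.Agent.LT.H556.A0 Fermat.Agent.LT.T7 Fermat.Agent.LT.T7.H305

/-- `|det|` on `GL₂(ℂ)`. -/
def absDet301 (B : GL (Fin 2) ℂ) : ℝ := ‖(B : Matrix (Fin 2) (Fin 2) ℂ).det‖

theorem absDet_pos301 (B : GL (Fin 2) ℂ) : 0 < absDet301 B := by
  have h : IsUnit (B : Matrix (Fin 2) (Fin 2) ℂ).det :=
    (Matrix.isUnit_iff_isUnit_det _).1 B.isUnit
  exact norm_pos_iff.2 h.ne_zero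

theorem absDet_mul301 (A B : GL (Fin 2) ℂ) : absDet301 (A * B) = absDet301 A * absDet301 B := by
  simp only [absDet301, Units.val_mul, Matrix.det_mul, norm_mul]

theorem absDet_one301 : absDet301 (1 : GL (Fin 2) ℂ) = 1 := by
  simp [absDet301]

/-- `|det|` as a homomorphism to the positive reals (as units of `ℝ`). -/
def absDetHom301 : GL (Fin 2) ℂ →* ℝˣ where
  toFun B := Units.mk0 (absDet301 B) (absDet_pos301 B).ne'
  map_one' := Units.ext absDet_one301
  map_mul' A B := Units.ext (absDet_mul301 A B)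

theorem absDet_zpow301 (A : GL (Fin 2) ℂ) (j : ℤ) : absDet301 (A ^ j) = absDet301 A ^ j := by
  have h := map_zpow absDetHom301 A j
  have h2 := congrArg (fun u : ℝˣ => (u : ℝ)) h
  simpa [absDetHom301] using h2

theorem absDet_conj301 (z A : GL (Fin 2) ℂ) : absDet301 (z⁻¹ * A * z) = absDet301 A := by
  rw [absDet_mul301, absDet_mul301]
  have h := absDet_mul301 z⁻¹ z
  rw [inv_mul_cancel, absDet_one301] at h
  calc absDet301 z⁻¹ * absDet301 A * absDet301 z
      = (absDet301 z⁻¹ * absDet301 z) * absDet301 A := by ring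
    _ = absDet301 A := by rw [← h, one_mul]

theorem continuous_absDet301 : Continuous absDet301 :=
  continuous_norm.comp (Continuous.matrix_det Units.continuous_val)

/-- The bound on a compact set. -/
theorem bounds_on_support301 (f : GL (Fin 2) ℂ → ℂ) (hf : HasCompactSupport f) :
    ∃ b b' : ℝ, ∀ B : GL (Fin 2) ℂ, f B ≠ 0 → absDet301 B ≤ b ∧ (absDet301 B)⁻¹ ≤ b' := by
  have hK : IsCompact (tsupport f) := hf
  obtain ⟨b, hb⟩ := hK.bddAbove_image continuous_absDet301.continuousOn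
  have hc' : Continuous fun B : GL (Fin 2) ℂ => (absDet301 B)⁻¹ :=
    continuous_absDet301.inv₀ (fun B => (absDet_pos301 B).ne')
  obtain ⟨b', hb'⟩ := hK.bddAbove_image hc'.continuousOn
  refine ⟨b, b', fun B hB => ?_⟩
  have hmem : B ∈ tsupport f := subset_tsupport f hB
  exact ⟨hb (Set.mem_image_of_mem _ hmem), hb' (Set.mem_image_of_mem _ hmem)⟩

variable {K : Type} [Field K] [NumberField K]

/-- The determinant of the ray generator at an infinite place. -/
theorem absDet_rayGen301 {r : G K} {t : ℝ} (ht0 : 0 < t) (w : InfinitePlace K)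
    (htw : infComp w r = Matrix.diagonal (fun _ => (t : ℂ))) :
    absDet301 (infGL305 w r) = t ^ 2 := by
  have h1 : ((infGL305 w r : GL (Fin 2) ℂ) : Matrix (Fin 2) (Fin 2) ℂ) = infComp w r := rfl
  rw [absDet301, h1, htw, Matrix.det_diagonal]
  simp [abs_of_pos ht0]

theorem one_lt_of_rayGen301 {t : ℝ} (ht0 : 0 < t) (ht2 : t ^ (2 * Module.finrank ℚ K) = 2) :
    1 < t := by
  by_contra h
  rw [not_lt] at h
  have h1 : t ^ (2 * Module.finrank ℚ K) ≤ 1 := pow_le_one₀ ht0.le h
  rw [ht2] at h1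
  norm_num at h1

/-- Integers of large absolute value are excluded. -/
theorem zpow_out301 {s c b b' : ℝ} (hs : 1 < s) (hc : 0 < c) :
    ∃ N : ℕ, ∀ j : ℤ, (N : ℤ) < |j| → ¬ (c * s ^ j ≤ b ∧ (c * s ^ j)⁻¹ ≤ b') := by
  obtain ⟨N, hN⟩ := pow_unbounded_of_one_lt (max (b / c) (b' * c)) hs
  have hs0 : 0 < s := lt_trans zero_lt_one hs
  refine ⟨N, fun j hj h => ?_⟩
  have hN1 : b / c < s ^ N := lt_of_le_of_lt (le_max_left _ _) hN
  have hN2 : b' * c < s ^ N := lt_of_le_of_lt (le_max_right _ _) hN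
  rcases lt_abs.1 hj with hpos | hneg
  · -- `N < j`
    have h1 : s ^ (N : ℤ) ≤ s ^ j := zpow_le_zpow_right₀ hs.le hpos.le
    rw [zpow_natCast] at h1
    have h2 : b / c < s ^ j := lt_of_lt_of_le hN1 h1
    rw [div_lt_iff₀ hc] at h2
    have := h.1
    linarith [mul_comm c (s ^ j)]
  · -- `N < -j`
    have h1 : s ^ (N : ℤ) ≤ s ^ (-j) := zpow_le_zpow_right₀ hs.le hneg.le
    rw [zpow_natCast, zpow_neg] at h1
    have hsj : 0 < s ^ j := zpow_pos hs0 j
    have h2 : b' * c < (s ^ j)⁻¹ := lt_of_lt_of_le hN2 h1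
    have h3 : (c * s ^ j)⁻¹ = (s ^ j)⁻¹ / c := by
      rw [mul_inv, div_eq_mul_inv, mul_comm]
    have h4 : b' < (s ^ j)⁻¹ / c := by
      rw [lt_div_iff₀ hc]; exact h2
    have := h.2
    rw [h3] at this
    linarith

theorem rayFinC301 (K : Type) [Field K] [NumberField K] : H558.RayFinC558 K := by
  classical
  intro r hr F hF γ
  obtain ⟨_, t, ht0, ht2, htw⟩ := hr
  have ht1 : 1 < t := one_lt_of_rayGen301 (K := K) ht0 ht2
  have hs : (1 : ℝ) < t ^ 2 := one_lt_pow₀ ht1 (by norm_num)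
  have key : ∀ w : InfinitePlace K, ∃ N : ℕ, ∀ j : ℤ, (N : ℤ) < |j| →
      ∀ z : GL (Fin 2) ℂ, F w (z⁻¹ * infGL305 w (T5.ratG γ * r ^ j) * z) = 0 := by
    intro w
    obtain ⟨b, b', hbb⟩ := bounds_on_support301 (F w) (hF w).2
    obtain ⟨N, hN⟩ := zpow_out301 (b := b) (b' := b') hs (absDet_pos301 (infGL305 w (T5.ratG γ)))
    refine ⟨N, fun j hj z => ?_⟩
    by_contra hne
    have h1 := hbb _ hne
    rw [absDet_conj301, map_mul, map_zpow, absDet_mul301, absDet_zpow301,
      absDet_rayGen301 ht0 w (htw w)] at h1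
    exact hN j hj h1
  choose N hN using key
  refine ⟨Finset.univ.biUnion fun w => Finset.Icc (-(N w : ℤ)) (N w), fun j hj w z => ?_⟩
  apply hN w
  have hjw : j ∉ Finset.Icc (-(N w : ℤ)) (N w) := fun h =>
    hj (Finset.mem_biUnion.2 ⟨w, Finset.mem_univ _, h⟩)
  rw [Finset.mem_Icc, not_and_or, not_le, not_le] at hjw
  rw [lt_abs]
  rcases hjw with h | h
  · right; linarith
  · left; exact h

end Fermat.Agent.LT.T7.H301
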